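import Fermat.Agent.GR.Defs

/-!
# Project G1 (port of GR to `Γ₁(M)`): shared definitions

* `eB M b ∈ ℤ[[q]]`: `∑_n (∑_{c ∣ n} ([c ≡ b] + [c ≡ -b]) (n/c)^11) q^n`, up to the constant
  `(2πi)^12/11!` the `q`-expansion of the Eisenstein series `∑_{c ≡ b (M)} ∑_{d ∈ ℤ} (cτ+d)^{-12}`
  of weight `12` on `Γ₁(M)` (`b ≠ 0`).
* `uB R M d b = e_b(q) / Δ(q^d)`: modular function on `Γ₁(M)` (`d ∣ M`), holomorphic on `ℍ`.
* `FF1 K M = K(j(q^d), e_b(q)/Δ(q^d) : d ∣ M, b ≠ 0) ⊆ K((q))`: the function field of `X₁(M)`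
  (model in which the cusp `∞` is rational, Galois acts on the coefficients).
* `IsKummer1`, `KummerEquiv1`, `kummerSubgroup1`: as in `GR/Defs.lean`.
The formal operators `scaleHom`, `Uop`, `normT`, `gal`, `IsInt`, `Cong`, `IsPrim` of `GR/Defs.lean`
are reused as they are.
-/

set_option autoImplicit false

noncomputable section

open ModularCurve AlgebraicCurve

namespace Fermat.Agent.G1

open Fermat.Agent.GR

section Series

/-- `∑_n (∑_{c ∣ n} ([c ≡ b] + [c ≡ -b]) (n/c)^11) q^n`. -/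
def eB (M : ℕ) (b : ZMod M) : PowerSeries ℤ :=
  PowerSeries.mk fun n => ∑ c ∈ n.divisors,
    ((if ((c : ℕ) : ZMod M) = b then (1 : ℤ) else 0) + (if ((c : ℕ) : ZMod M) = -b then 1 else 0)) *
      ((n / c : ℕ) : ℤ) ^ 11

theorem coeff_eB (M : ℕ) (b : ZMod M) (n : ℕ) :
    PowerSeries.coeff n (eB M b) = ∑ c ∈ n.divisors,
      ((if ((c : ℕ) : ZMod M) = b then (1 : ℤ) else 0) +
        (if ((c : ℕ) : ZMod M) = -b then 1 else 0)) * ((n / c : ℕ) : ℤ) ^ 11 :=
  PowerSeries.coeff_mk _ _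

variable (R : Type*) [CommRing R]

/-- `e_b` as a Laurent series over `R`. -/
def eBL (M : ℕ) (b : ZMod M) : LaurentSeries R :=
  HahnSeries.ofPowerSeries ℤ R ((eB M b).map (Int.castRingHom R))

/-- `Δ(q)⁻¹ = q⁻¹ ∏ (1 - q^n)^{-24}` as a Laurent series over `R`. -/
def invDelta : LaurentSeries R :=
  HahnSeries.single (-1 : ℤ) 1 *
    HahnSeries.ofPowerSeries ℤ R (dedekindEtaUnitInv.map (Int.castRingHom R))

/-- `e_b(q) / Δ(q^d)`. -/
def uB (M d : ℕ) [NeZero d] (b : ZMod M) : LaurentSeries R :=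
  eBL R M b * qExpand R d (invDelta R)

variable {R} {S : Type*} [CommRing S]

theorem map_map_intCast (φ : R →+* S) (P : PowerSeries ℤ) :
    (P.map (Int.castRingHom R)).map φ = P.map (Int.castRingHom S) := by
  ext n
  simp

@[simp] theorem coeffMap_eBL (φ : R →+* S) (M : ℕ) (b : ZMod M) :
    coeffMap φ (eBL R M b) = eBL S M b := by
  rw [eBL, coeffMap_ofPowerSeries, map_map_intCast, eBL]

@[simp] theorem coeffMap_invDelta (φ : R →+* S) : coeffMap φ (invDelta R) = invDelta S := by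
  rw [invDelta, map_mul, coeffMap_single, map_one, coeffMap_ofPowerSeries, map_map_intCast,
    invDelta]

@[simp] theorem coeffMap_uB (φ : R →+* S) (M d : ℕ) [NeZero d] (b : ZMod M) :
    coeffMap φ (uB R M d b) = uB S M d b := by
  rw [uB, map_mul, coeffMap_eBL, coeffMap_qExpand, coeffMap_invDelta, uB]

end Series

section FunctionField

variable (K : Type*) [Field K] (M : ℕ)

/-- The generators of `FF1 K M` which are not in `FF K M`. -/
def eisGens : Set (LaurentSeries K) :=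
  {x | ∃ (d : ℕ) (_ : NeZero d) (b : ZMod M), d ∣ M ∧ b ≠ 0 ∧ x = uB K M d b}

/-- The function field of `X₁(M)` over `K`, inside `K((q))`. -/
def FF1 : IntermediateField K (LaurentSeries K) :=
  IntermediateField.adjoin K (divisorExpansionsC K M ∪ eisGens K M)

theorem FF_le_FF1 : FF K M ≤ FF1 K M :=
  IntermediateField.adjoin.mono K _ _ Set.subset_union_left

variable {K M} in
theorem uB_mem_FF1 {d : ℕ} [NeZero d] (hd : d ∣ M) {b : ZMod M} (hb : b ≠ 0) :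
    uB K M d b ∈ FF1 K M :=
  IntermediateField.subset_adjoin K _ (Or.inr ⟨d, ‹_›, b, hd, hb, rfl⟩)

/-- The group of nonzero functions all of whose orders are divisible by `n`. -/
def kummerSubgroup1 (n : ℕ) : Subgroup (FF1 K M)ˣ where
  carrier := {u | ∀ v : Place K (FF1 K M), (n : ℤ) ∣ v.ord (u : FF1 K M)}
  mul_mem' := by
    intro a b ha hb v
    rw [Units.val_mul, Place.ord_mul v a.ne_zero b.ne_zero]
    exact dvd_add (ha v) (hb v)
  one_mem' := by
    intro v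
    simp
  inv_mem' := by
    intro a ha v
    have h : v.ord ((a : FF1 K M) * ((a⁻¹ : (FF1 K M)ˣ) : FF1 K M)) = 0 := by
      rw [Units.mul_inv, Place.ord_one]
    rw [Place.ord_mul v a.ne_zero (a⁻¹).ne_zero] at h
    have h2 : v.ord ((a⁻¹ : (FF1 K M)ˣ) : FF1 K M) = -v.ord (a : FF1 K M) := by linarith
    rw [h2]
    exact (ha v).neg_right

variable {K M}

/-- `u : K((q))` is a nonzero element of `FF1 K M` all of whose orders are divisible by `n`. -/
def IsKummer1 (n : ℕ) (u : LaurentSeries K) : Prop :=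
  u ≠ 0 ∧ ∃ hu : u ∈ FF1 K M, ∀ v : Place K (FF1 K M), (n : ℤ) ∣ v.ord (⟨u, hu⟩ : FF1 K M)

/-- `u` and `u'` differ by an `n`-th power of `FF1 K M`. -/
def KummerEquiv1 (M n : ℕ) (u u' : LaurentSeries K) : Prop :=
  ∃ z ∈ FF1 K M, z ≠ 0 ∧ u' = u * z ^ n

end FunctionField

section Diamond

variable (K : Type*) [Field K] (M : ℕ)

/-- `δ` is the diamond automorphism `δ_a` of `FF1 K M`: it fixes `FF K M` and maps
`e_b(q)/Δ(q^d)` to `e_{ab}(q)/Δ(q^d)`.  (Such a `δ` is unique; its existence is a theorem.)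
ANALYTICALLY: `e_b ∣[12] γ = e_{a_γ b}` for `γ = (a_γ, b_γ; c_γ, d_γ) ∈ Γ₀(M)`, so `δ_a` is the
action of any `γ ∈ Γ₀(M)` with UPPER LEFT entry `≡ a`, i.e. LOWER RIGHT entry `≡ a⁻¹`:
the classical `⟨d⟩` (`f ∣ γ`, `d_γ ≡ d`, as in `S48.HasNeb`) is `δ_{d⁻¹}`. -/
structure IsDiamond (a : (ZMod M)ˣ) (δ : FF1 K M ≃ₐ[K] FF1 K M) : Prop where
  fix : ∀ x : FF1 K M, (x : LaurentSeries K) ∈ FF K M → δ x = x
  map_uB : ∀ (d : ℕ) [NeZero d] (hd : d ∣ M) (b : ZMod M) (hb : b ≠ 0),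
    ((δ ⟨uB K M d b, uB_mem_FF1 hd hb⟩ : FF1 K M) : LaurentSeries K) = uB K M d ((a : ZMod M) * b)

/-- INTERFACE: the diamond operators exist. -/
def DiamondExists : Prop :=
  ∀ a : (ZMod M)ˣ, ∃ δ : FF1 K M ≃ₐ[K] FF1 K M, IsDiamond K M a δ

variable {K M} in
/-- The multiplicative Hecke operator `T_p` (`p ∤ M`) on `FF1 K M`:
`u ↦ (δ u)(q^p) ∏_{j < p} u(ζ^j q^{1/p})`, where `δ = ⟨p⟩ = δ_{p⁻¹}`
(`IsDiamond K M (p⁻¹) δ`). -/
def heckeMulT1 (p : ℕ) [NeZero p] (ζ : Kˣ) (δ : FF1 K M ≃ₐ[K] FF1 K M) (u : FF1 K M) :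
    LaurentSeries K :=
  qExpand K p (δ u : FF1 K M) * normT p ζ (u : LaurentSeries K)

end Diamond

end Fermat.Agent.G1
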