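import Fermat.Agent.G1.E.Model

/-!
# Project G1: formal properties of the diamond automorphisms of `FF1 K M`

`IsDiamond K M a δ` (`G1/Defs.lean`) determines `δ`; `diam K M a` is the chosen one (junk if it does not exist).
Group laws, compatibility with change of constants (`mapFF1`, `gal`), stability of Kummer functions.
CONVENTION (helper1): `δ_a : e_b ↦ e_{a b}` is the action of `γ ∈ Γ₀(M)` with UPPER LEFT entry `a`;
the classical `⟨d⟩` is `δ_{d⁻¹}`; `T_p` uses `diamP M p = δ_{p⁻¹}`.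
-/

set_option autoImplicit false
set_option synthInstance.maxHeartbeats 400000

noncomputable section

open ModularCurve AlgebraicCurve

namespace Fermat.Agent.G1

open Fermat.Agent.GR Fermat.Agent.G1.E

variable {K : Type*} [Field K] {M : ℕ}

/-- Galois stability of the function field. -/
theorem gal_mem_FF1 {k Ω : Type*} [Field k] [Field Ω] [Algebra k Ω] (σ : Ω ≃ₐ[k] Ω) (M : ℕ)
    {u : LaurentSeries Ω} (hu : u ∈ FF1 Ω M) : gal σ u ∈ FF1 Ω M :=
  coeffMap_mem_FF1 (σ : Ω →+* Ω) M hu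

/-- two ring homomorphisms out of `FF1 K M` which agree on the constants and on the generators are equal. -/
theorem FF1_hom_ext {R : Type*} [DivisionRing R] (f g : FF1 K M →+* R)
    (hc : ∀ c : K, f (algebraMap K (FF1 K M) c) = g (algebraMap K (FF1 K M) c))
    (hj : ∀ (d : ℕ) [NeZero d] (hd : d ∣ M),
      f ⟨qExpand K d (jqModC K), FF_le_FF1 K M (jqModCd_mem_full K M hd)⟩ =
        g ⟨qExpand K d (jqModC K), FF_le_FF1 K M (jqModCd_mem_full K M hd)⟩)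
    (hu : ∀ (d : ℕ) [NeZero d] (hd : d ∣ M) (b : ZMod M) (hb : b ≠ 0),
      f ⟨uB K M d b, uB_mem_FF1 hd hb⟩ = g ⟨uB K M d b, uB_mem_FF1 hd hb⟩) (x : FF1 K M) :
    f x = g x := by
  obtain ⟨x, hx⟩ := x
  induction hx using IntermediateField.adjoin_induction with
  | mem x hx =>
    rcases hx with hx | hx
    · obtain ⟨d, hd, hdM, rfl⟩ := hx
      exact hj d hdM
    · obtain ⟨d, hd, b, hdM, hb, rfl⟩ := hx
      exact hu d hdM b hb
  | algebraMap c => exact hc c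
  | add x y hx hy ihx ihy =>
    have h : (⟨x + y, add_mem hx hy⟩ : FF1 K M) = ⟨x, hx⟩ + ⟨y, hy⟩ := rfl
    rw [h, map_add, map_add, ihx, ihy]
  | inv x hx ihx =>
    have h : (⟨x⁻¹, inv_mem hx⟩ : FF1 K M) = (⟨x, hx⟩ : FF1 K M)⁻¹ := rfl
    rw [h, map_inv₀, map_inv₀, ihx]
  | mul x y hx hy ihx ihy =>
    have h : (⟨x * y, mul_mem hx hy⟩ : FF1 K M) = ⟨x, hx⟩ * ⟨y, hy⟩ := rfl
    rw [h, map_mul, map_mul, ihx, ihy]

theorem IsDiamond.apply_uB {a : (ZMod M)ˣ} {δ : FF1 K M ≃ₐ[K] FF1 K M} (h : IsDiamond K M a δ)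
    {d : ℕ} [NeZero d] (hd : d ∣ M) {b : ZMod M} (hb : b ≠ 0) :
    δ ⟨uB K M d b, uB_mem_FF1 hd hb⟩ =
      ⟨uB K M d ((a : ZMod M) * b), uB_mem_FF1 hd (a.isUnit.mul_right_eq_zero.not.2 hb)⟩ :=
  Subtype.ext (h.map_uB d hd b hb)

theorem IsDiamond.apply_jq {a : (ZMod M)ˣ} {δ : FF1 K M ≃ₐ[K] FF1 K M} (h : IsDiamond K M a δ)
    {d : ℕ} [NeZero d] (hd : d ∣ M) :
    δ ⟨qExpand K d (jqModC K), FF_le_FF1 K M (jqModCd_mem_full K M hd)⟩ =
      ⟨qExpand K d (jqModC K), FF_le_FF1 K M (jqModCd_mem_full K M hd)⟩ :=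
  h.fix _ (jqModCd_mem_full K M hd)

/-- the diamond automorphism is unique. -/
theorem IsDiamond.unique {a : (ZMod M)ˣ} {δ δ' : FF1 K M ≃ₐ[K] FF1 K M}
    (h : IsDiamond K M a δ) (h' : IsDiamond K M a δ') : δ = δ' := by
  apply AlgEquiv.ext
  intro x
  refine FF1_hom_ext (δ : FF1 K M →+* FF1 K M) (δ' : FF1 K M →+* FF1 K M) ?_ ?_ ?_ x
  · intro c
    exact (δ.commutes c).trans (δ'.commutes c).symm
  · intro d _ hd
    exact (h.apply_jq hd).trans (h'.apply_jq hd).symm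
  · intro d _ hd b hb
    exact (h.apply_uB hd hb).trans (h'.apply_uB hd hb).symm

/-- a criterion on generators. -/
theorem isDiamond_of_gens {a : (ZMod M)ˣ} {δ : FF1 K M ≃ₐ[K] FF1 K M}
    (hj : ∀ (d : ℕ) [NeZero d] (hd : d ∣ M),
      δ ⟨qExpand K d (jqModC K), FF_le_FF1 K M (jqModCd_mem_full K M hd)⟩ =
        ⟨qExpand K d (jqModC K), FF_le_FF1 K M (jqModCd_mem_full K M hd)⟩)
    (hu : ∀ (d : ℕ) [NeZero d] (hd : d ∣ M) (b : ZMod M) (hb : b ≠ 0),
      ((δ ⟨uB K M d b, uB_mem_FF1 hd hb⟩ : FF1 K M) : LaurentSeries K) = uB K M d ((a : ZMod M) * b)) :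
    IsDiamond K M a δ where
  fix := by
    rintro ⟨x, hx1⟩ hx
    change x ∈ FF K M at hx
    let f : FF1 K M →+* FF1 K M := (δ : FF1 K M →+* FF1 K M)
    show f ⟨x, hx1⟩ = ⟨x, hx1⟩
    induction hx using IntermediateField.adjoin_induction with
    | mem x hx =>
      obtain ⟨d, hd, hdM, rfl⟩ := hx
      exact hj d hdM
    | algebraMap c => exact δ.commutes c
    | add x y hx hy ihx ihy =>
      have h : (⟨x + y, hx1⟩ : FF1 K M) = ⟨x, FF_le_FF1 K M hx⟩ + ⟨y, FF_le_FF1 K M hy⟩ := rfl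
      rw [h, map_add, ihx, ihy]
    | inv x hx ihx =>
      have h : (⟨x⁻¹, hx1⟩ : FF1 K M) = (⟨x, FF_le_FF1 K M hx⟩ : FF1 K M)⁻¹ := rfl
      rw [h, map_inv₀, ihx]
    | mul x y hx hy ihx ihy =>
      have h : (⟨x * y, hx1⟩ : FF1 K M) = ⟨x, FF_le_FF1 K M hx⟩ * ⟨y, FF_le_FF1 K M hy⟩ := rfl
      rw [h, map_mul, ihx, ihy]
  map_uB := hu

theorem isDiamond_one : IsDiamond K M 1 (1 : FF1 K M ≃ₐ[K] FF1 K M) where
  fix := fun _ _ => rfl
  map_uB := fun d _ hd b hb => by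
    rw [Units.val_one, one_mul]
    rfl

theorem IsDiamond.mul {a a' : (ZMod M)ˣ} {δ δ' : FF1 K M ≃ₐ[K] FF1 K M}
    (h : IsDiamond K M a δ) (h' : IsDiamond K M a' δ') : IsDiamond K M (a * a') (δ * δ') where
  fix := fun x hx => by
    rw [AlgEquiv.mul_apply, h'.fix x hx, h.fix x hx]
  map_uB := fun d _ hd b hb => by
    rw [AlgEquiv.mul_apply, h'.apply_uB hd hb,
      h.apply_uB hd (a'.isUnit.mul_right_eq_zero.not.2 hb), Units.val_mul, mul_assoc]

theorem IsDiamond.inv {a : (ZMod M)ˣ} {δ : FF1 K M ≃ₐ[K] FF1 K M}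
    (h : IsDiamond K M a δ) : IsDiamond K M a⁻¹ δ⁻¹ where
  fix := fun x hx => by
    conv_lhs => rw [← h.fix x hx]
    exact δ.symm_apply_apply x
  map_uB := fun d _ hd b hb => by
    have hb' : ((a⁻¹ : (ZMod M)ˣ) : ZMod M) * b ≠ 0 := (a⁻¹).isUnit.mul_right_eq_zero.not.2 hb
    have h1 := h.apply_uB hd hb'
    have h2 : (a : ZMod M) * (((a⁻¹ : (ZMod M)ˣ) : ZMod M) * b) = b := by
      rw [← mul_assoc, Units.mul_inv, one_mul]
    have h3 : (⟨uB K M d b, uB_mem_FF1 hd hb⟩ : FF1 K M) =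
        δ ⟨uB K M d (((a⁻¹ : (ZMod M)ˣ) : ZMod M) * b), uB_mem_FF1 hd hb'⟩ := by
      rw [h1]
      exact Subtype.ext (congrArg (uB K M d) h2.symm)
    rw [h3]
    exact congrArg Subtype.val (δ.symm_apply_apply _)

/-- the chosen diamond automorphism `δ_a` (junk if it does not exist). -/
def diam (K : Type*) [Field K] (M : ℕ) (a : (ZMod M)ˣ) : FF1 K M ≃ₐ[K] FF1 K M :=
  @Classical.epsilon _ ⟨AlgEquiv.refl⟩ (fun δ : FF1 K M ≃ₐ[K] FF1 K M => IsDiamond K M a δ)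

theorem isDiamond_diam (h : DiamondExists K M) (a : (ZMod M)ˣ) : IsDiamond K M a (diam K M a) :=
  @Classical.epsilon_spec _ (fun δ : FF1 K M ≃ₐ[K] FF1 K M => IsDiamond K M a δ) (h a)

theorem IsDiamond.eq_diam {a : (ZMod M)ˣ} {δ : FF1 K M ≃ₐ[K] FF1 K M} (h : IsDiamond K M a δ) :
    δ = diam K M a :=
  h.unique (@Classical.epsilon_spec _ (fun δ : FF1 K M ≃ₐ[K] FF1 K M => IsDiamond K M a δ) ⟨δ, h⟩)

theorem diam_one : diam K M 1 = 1 := (isDiamond_one.eq_diam).symm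

theorem diam_mul (h : DiamondExists K M) (a a' : (ZMod M)ˣ) :
    diam K M (a * a') = diam K M a * diam K M a' :=
  (((isDiamond_diam h a).mul (isDiamond_diam h a')).eq_diam).symm

theorem diam_inv (h : DiamondExists K M) (a : (ZMod M)ˣ) : diam K M a⁻¹ = (diam K M a)⁻¹ :=
  ((isDiamond_diam h a).inv.eq_diam).symm

theorem diam_comm (h : DiamondExists K M) (a a' : (ZMod M)ˣ) (x : FF1 K M) :
    diam K M a (diam K M a' x) = diam K M a' (diam K M a x) := by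
  rw [← AlgEquiv.mul_apply, ← AlgEquiv.mul_apply, ← diam_mul h, ← diam_mul h, mul_comm]

/-- diamonds commute with every change of constants. -/
theorem IsDiamond.mapFF1_comm {K' : Type*} [Field K'] (φ : K →+* K') {a : (ZMod M)ˣ}
    {δ : FF1 K M ≃ₐ[K] FF1 K M} {δ' : FF1 K' M ≃ₐ[K'] FF1 K' M}
    (h : IsDiamond K M a δ) (h' : IsDiamond K' M a δ') (x : FF1 K M) :
    mapFF1 φ M (δ x) = δ' (mapFF1 φ M x) := by
  refine FF1_hom_ext ((mapFF1 φ M).comp (δ : FF1 K M →+* FF1 K M))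
    ((δ' : FF1 K' M →+* FF1 K' M).comp (mapFF1 φ M)) ?_ ?_ ?_ x
  · intro c
    have h1 : mapFF1 φ M (algebraMap K (FF1 K M) c) = algebraMap K' (FF1 K' M) (φ c) := by
      apply Subtype.ext
      show coeffMap φ (algebraMap K (LaurentSeries K) c) = algebraMap K' (LaurentSeries K') (φ c)
      rw [algebraMap_laurentSeries_eq_single, algebraMap_laurentSeries_eq_single, coeffMap_single]
    show mapFF1 φ M (δ (algebraMap K (FF1 K M) c)) = δ' (mapFF1 φ M (algebraMap K (FF1 K M) c))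
    rw [δ.commutes, h1, δ'.commutes]
  · intro d _ hd
    have h1 : mapFF1 φ M ⟨qExpand K d (jqModC K), FF_le_FF1 K M (jqModCd_mem_full K M hd)⟩ =
        ⟨qExpand K' d (jqModC K'), FF_le_FF1 K' M (jqModCd_mem_full K' M hd)⟩ := by
      apply Subtype.ext
      show coeffMap φ _ = _
      rw [coeffMap_qExpand, coeffMap_jqModC]
    show mapFF1 φ M (δ _) = δ' (mapFF1 φ M _)
    rw [h.apply_jq hd, h1, h'.apply_jq hd]
  · intro d _ hd b hb
    have h1 : ∀ (b : ZMod M) (hb : b ≠ 0), mapFF1 φ M ⟨uB K M d b, uB_mem_FF1 hd hb⟩ =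
        ⟨uB K' M d b, uB_mem_FF1 hd hb⟩ := by
      intro b hb
      apply Subtype.ext
      show coeffMap φ _ = _
      rw [coeffMap_uB]
    show mapFF1 φ M (δ _) = δ' (mapFF1 φ M _)
    rw [h.apply_uB hd hb, h1 _ (a.isUnit.mul_right_eq_zero.not.2 hb), h1 _ hb, h'.apply_uB hd hb]

/-- diamonds commute with the Galois action on coefficients. -/
theorem IsDiamond.gal_comm {k Ω : Type*} [Field k] [Field Ω] [Algebra k Ω] (σ : Ω ≃ₐ[k] Ω)
    {a : (ZMod M)ˣ} {δ : FF1 Ω M ≃ₐ[Ω] FF1 Ω M} (h : IsDiamond Ω M a δ) (x : FF1 Ω M) :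
    gal σ (δ x : FF1 Ω M) = (δ ⟨gal σ x, gal_mem_FF1 σ M x.2⟩ : FF1 Ω M) :=
  congrArg Subtype.val (h.mapFF1_comm (σ : Ω →+* Ω) h x)

/-- automorphisms of the function field preserve Kummer functions. -/
theorem IsKummer1.algEquiv {n : ℕ} (δ : FF1 K M ≃ₐ[K] FF1 K M) {x : FF1 K M}
    (hx : IsKummer1 (M := M) n (x : LaurentSeries K)) :
    IsKummer1 (M := M) n ((δ x : FF1 K M) : LaurentSeries K) := by
  obtain ⟨h0, hx1, hv⟩ := hx
  refine ⟨?_, (δ x).2, fun v => ?_⟩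
  · intro h
    apply h0
    have h1 : δ x = 0 := Subtype.ext h
    have h2 : x = 0 := by simpa using h1
    rw [h2]
    rfl
  · have h1 := Place.ord_smul δ (δ⁻¹ • v) x
    rw [smul_inv_smul] at h1
    have h2 : (⟨((δ x : FF1 K M) : LaurentSeries K), (δ x).2⟩ : FF1 K M) = δ x := rfl
    rw [h2, h1]
    exact hv _

/-- the unit `p mod M`. -/
def unitP (M p : ℕ) (h : p.Coprime M) : (ZMod M)ˣ := ZMod.unitOfCoprime p h

/-- the classical `⟨p⟩ = δ_{p⁻¹}` used in `T_p`. -/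
def diamP (K : Type*) [Field K] (M p : ℕ) (h : p.Coprime M) : FF1 K M ≃ₐ[K] FF1 K M :=
  diam K M (unitP M p h)⁻¹

end Fermat.Agent.G1
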