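import Fermat.Agent.GR.Defs

/-!
# Project G1 (port of GR to `Γ₁(M)`): function fields generated by integral `q`-expansions

`FS K S = K(g : g ∈ S) ⊆ K((q))` for a set `S` of Laurent series with INTEGER coefficients.
Both `GR.FF K N` (`S = {j(q^d) : d ∣ N}`) and the function field `FF1 K M` of `X₁(M)` are of this
form.  Everything in GR which does not use the specific generators is ported for a general `S`.

* `FS K S`, `IsKummerS S n u`, `KummerEquivS S n u u'`, `kummerSubgroupS K S n`;
* functoriality in the field of constants: `coeffMap_mem_FS`, `mapFS`.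
-/

set_option autoImplicit false

noncomputable section

open ModularCurve AlgebraicCurve

namespace Fermat.Agent.G1

open Fermat.Agent.GR

section FunctionField

variable (K : Type*) [Field K] (S : Set (LaurentSeries ℤ))

/-- The base change of an integral Laurent series to `K`. -/
abbrev bc (g : LaurentSeries ℤ) : LaurentSeries K := coeffMap (Int.castRingHom K) g

/-- The subfield of `K((q))` generated over `K` by the integral series in `S`. -/
def FS : IntermediateField K (LaurentSeries K) :=
  IntermediateField.adjoin K ((fun g : LaurentSeries ℤ => bc K g) '' S)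

variable {S} in
theorem bc_mem_FS {g : LaurentSeries ℤ} (hg : g ∈ S) : bc K g ∈ FS K S :=
  IntermediateField.subset_adjoin K _ ⟨g, hg, rfl⟩

variable {S} in
theorem FS_mono {S' : Set (LaurentSeries ℤ)} (h : S ⊆ S') : FS K S ≤ FS K S' :=
  IntermediateField.adjoin.mono K _ _ (Set.image_mono h)

/-- The group of nonzero functions all of whose orders are divisible by `n`. -/
def kummerSubgroupS (n : ℕ) : Subgroup (FS K S)ˣ where
  carrier := {u | ∀ v : Place K (FS K S), (n : ℤ) ∣ v.ord (u : FS K S)}
  mul_mem' := by
    intro a b ha hb v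
    rw [Units.val_mul, Place.ord_mul v a.ne_zero b.ne_zero]
    exact dvd_add (ha v) (hb v)
  one_mem' := by
    intro v
    simp
  inv_mem' := by
    intro a ha v
    have h : v.ord ((a : FS K S) * ((a⁻¹ : (FS K S)ˣ) : FS K S)) = 0 := by
      rw [Units.mul_inv, Place.ord_one]
    rw [Place.ord_mul v a.ne_zero (a⁻¹).ne_zero] at h
    have h2 : v.ord ((a⁻¹ : (FS K S)ˣ) : FS K S) = -v.ord (a : FS K S) := by linarith
    rw [h2]
    exact (ha v).neg_right

variable {K}

/-- `u : K((q))` is a nonzero element of the function field all of whose orders are divisible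
by `n`. -/
def IsKummerS (n : ℕ) (u : LaurentSeries K) : Prop :=
  u ≠ 0 ∧ ∃ hu : u ∈ FS K S, ∀ v : Place K (FS K S), (n : ℤ) ∣ v.ord (⟨u, hu⟩ : FS K S)

/-- `u` and `u'` differ by an `n`-th power of the function field. -/
def KummerEquivS (n : ℕ) (u u' : LaurentSeries K) : Prop :=
  ∃ z ∈ FS K S, z ≠ 0 ∧ u' = u * z ^ n

end FunctionField

section Functoriality

theorem coeffMap_bc {K K' : Type*} [Field K] [Field K'] (φ : K →+* K') (g : LaurentSeries ℤ) :
    coeffMap φ (bc K g) = bc K' g := by
  ext k
  simp [bc]

/-- Functoriality of `FS` in the field of constants. -/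
theorem coeffMap_mem_FS {K K' : Type*} [Field K] [Field K'] (φ : K →+* K')
    (S : Set (LaurentSeries ℤ)) {u : LaurentSeries K} (hu : u ∈ FS K S) :
    coeffMap φ u ∈ FS K' S := by
  induction hu using IntermediateField.adjoin_induction with
  | mem x hx =>
    obtain ⟨g, hg, rfl⟩ := hx
    show coeffMap φ (bc K g) ∈ _
    rw [coeffMap_bc]
    exact bc_mem_FS K' hg
  | algebraMap c =>
    have : coeffMap φ (algebraMap K (LaurentSeries K) c) = algebraMap K' (LaurentSeries K') (φ c) := by
      rw [algebraMap_laurentSeries_eq_single, algebraMap_laurentSeries_eq_single, coeffMap_single]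
    rw [this]
    exact (FS K' S).algebraMap_mem _
  | add x y _ _ hx hy => rw [map_add]; exact add_mem hx hy
  | inv x _ hx => rw [map_inv₀]; exact inv_mem hx
  | mul x y _ _ hx hy => rw [map_mul]; exact mul_mem hx hy

/-- The map `FS K S → FS K' S` induced by a field homomorphism. -/
def mapFS {K K' : Type*} [Field K] [Field K'] (φ : K →+* K') (S : Set (LaurentSeries ℤ)) :
    FS K S →+* FS K' S where
  toFun u := ⟨coeffMap φ u, coeffMap_mem_FS φ S u.2⟩
  map_one' := Subtype.ext (by simp)
  map_mul' a b := Subtype.ext (by simp)
  map_zero' := Subtype.ext (by simp)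
  map_add' a b := Subtype.ext (by simp)

@[simp] theorem coe_mapFS {K K' : Type*} [Field K] [Field K'] (φ : K →+* K')
    (S : Set (LaurentSeries ℤ)) (u : FS K S) :
    (mapFS φ S u : LaurentSeries K') = coeffMap φ u := rfl

end Functoriality

end Fermat.Agent.G1
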