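import Fermat.Agent.G1.Defs
import Fermat.Agent.G1.FS

/-!
# Project G1: bridge between `FF1 K M` (`G1/Defs.lean`) and `FS K S` (`G1/FS.lean`, used by G1-E/F)

`gensZ M : Set (LaurentSeries ℤ)` is the set of integral generators `j(q^d)`, `e_b(q)/Δ(q^d)` and
`FF1 K M = FS K (gensZ M)`; the notions of Kummer function / Kummer equivalence agree.
-/

set_option autoImplicit false

noncomputable section

open ModularCurve AlgebraicCurve

namespace Fermat.Agent.G1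

open Fermat.Agent.GR

/-- the integral generators of `FF1 K M`. -/
def gensZ (M : ℕ) : Set (LaurentSeries ℤ) :=
  {x | ∃ (d : ℕ) (_ : NeZero d), d ∣ M ∧ x = qExpand ℤ d (jqModC ℤ)} ∪
    {x | ∃ (d : ℕ) (_ : NeZero d) (b : ZMod M), d ∣ M ∧ b ≠ 0 ∧ x = uB ℤ M d b}

theorem jq_mem_gensZ {M d : ℕ} [NeZero d] (hd : d ∣ M) : qExpand ℤ d (jqModC ℤ) ∈ gensZ M :=
  Or.inl ⟨d, ‹_›, hd, rfl⟩

theorem uB_mem_gensZ {M d : ℕ} [NeZero d] (hd : d ∣ M) {b : ZMod M} (hb : b ≠ 0) :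
    uB ℤ M d b ∈ gensZ M :=
  Or.inr ⟨d, ‹_›, b, hd, hb, rfl⟩

theorem jqModC_mem_gensZ (M : ℕ) : jqModC ℤ ∈ gensZ M := by
  have h := jq_mem_gensZ (M := M) (d := 1) (one_dvd M)
  rwa [qExpand_one_apply] at h

theorem finite_gensZ (M : ℕ) [NeZero M] : (gensZ M).Finite := by
  classical
  have hM : M ≠ 0 := NeZero.ne M
  refine Set.Finite.union ?_ ?_
  · refine Set.Finite.subset
      ((M.divisors : Set ℕ).toFinite.image
        (fun d : ℕ => if h : d = 0 then 0 else haveI : NeZero d := ⟨h⟩; qExpand ℤ d (jqModC ℤ))) ?_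
    rintro x ⟨d, hd, hdM, rfl⟩
    refine ⟨d, by simpa using ⟨hdM, hM⟩, ?_⟩
    simp only [dif_neg (NeZero.ne d)]
  · refine Set.Finite.subset
      (((M.divisors : Set ℕ) ×ˢ (Set.univ : Set (ZMod M))).toFinite.image
        (fun p : ℕ × ZMod M => if h : p.1 = 0 then 0 else haveI : NeZero p.1 := ⟨h⟩; uB ℤ M p.1 p.2)) ?_
    rintro x ⟨d, hd, b, hdM, -, rfl⟩
    refine ⟨(d, b), by simpa using ⟨hdM, hM⟩, ?_⟩
    simp only [dif_neg (NeZero.ne d)]

instance finite_gensZ' (M : ℕ) [NeZero M] : Finite (gensZ M) := (finite_gensZ M).to_subtype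

section

variable (K : Type*) [Field K] (M : ℕ)

theorem image_gensZ :
    (fun g : LaurentSeries ℤ => bc K g) '' gensZ M = divisorExpansionsC K M ∪ eisGens K M := by
  rw [gensZ, Set.image_union]
  congr 1
  · ext x
    constructor
    · rintro ⟨_, ⟨d, hd, hdM, rfl⟩, rfl⟩
      refine ⟨d, hd, hdM, ?_⟩
      show coeffMap _ _ = _
      rw [coeffMap_qExpand, coeffMap_jqModC]
    · rintro ⟨d, hd, hdM, rfl⟩
      refine ⟨_, ⟨d, hd, hdM, rfl⟩, ?_⟩
      show coeffMap _ _ = _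
      rw [coeffMap_qExpand, coeffMap_jqModC]
  · ext x
    constructor
    · rintro ⟨_, ⟨d, hd, b, hdM, hb, rfl⟩, rfl⟩
      refine ⟨d, hd, b, hdM, hb, ?_⟩
      show coeffMap _ _ = _
      rw [coeffMap_uB]
    · rintro ⟨d, hd, b, hdM, hb, rfl⟩
      refine ⟨_, ⟨d, hd, b, hdM, hb, rfl⟩, ?_⟩
      show coeffMap _ _ = _
      rw [coeffMap_uB]

/-- **Bridge.** -/
theorem FF1_eq_FS : FF1 K M = FS K (gensZ M) := by
  rw [FF1, FS, image_gensZ]

end

section Kummer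

variable {K : Type*} [Field K]

/-- the Kummer condition for an arbitrary subfield of `K((q))`. -/
def IsKummerF (F : IntermediateField K (LaurentSeries K)) (n : ℕ) (u : LaurentSeries K) : Prop :=
  u ≠ 0 ∧ ∃ hu : u ∈ F, ∀ v : Place K F, (n : ℤ) ∣ v.ord (⟨u, hu⟩ : F)

/-- Kummer equivalence for an arbitrary subfield of `K((q))`. -/
def KummerEquivF (F : IntermediateField K (LaurentSeries K)) (n : ℕ) (u u' : LaurentSeries K) : Prop :=
  ∃ z ∈ F, z ≠ 0 ∧ u' = u * z ^ n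

theorem isKummer1_iff_F {M n : ℕ} {u : LaurentSeries K} :
    IsKummer1 (M := M) n u ↔ IsKummerF (FF1 K M) n u := Iff.rfl

theorem isKummerS_iff_F {S : Set (LaurentSeries ℤ)} {n : ℕ} {u : LaurentSeries K} :
    IsKummerS S n u ↔ IsKummerF (FS K S) n u := Iff.rfl

theorem isKummer1_iff_S {M n : ℕ} {u : LaurentSeries K} :
    IsKummer1 (M := M) n u ↔ IsKummerS (gensZ M) n u := by
  rw [isKummer1_iff_F, isKummerS_iff_F, FF1_eq_FS]

theorem kummerEquiv1_iff_S {M n : ℕ} {u u' : LaurentSeries K} :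
    KummerEquiv1 M n u u' ↔ KummerEquivS (gensZ M) n u u' := by
  unfold KummerEquiv1 KummerEquivS
  rw [FF1_eq_FS]

theorem mem_FF1_iff_S {M : ℕ} {u : LaurentSeries K} : u ∈ FF1 K M ↔ u ∈ FS K (gensZ M) := by
  rw [FF1_eq_FS]

end Kummer

end Fermat.Agent.G1
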