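import Fermat.Agent.G1.Defs

/-!
# Project G1: `FF1 K M ≤ FF1 K M'` for `M ∣ M'`

`e_b^{(M)} = ∑_{b' ↦ b} e_{b'}^{(M')}` (sum over the fibre of `ZMod M' → ZMod M`).
-/

set_option autoImplicit false

noncomputable section

open ModularCurve AlgebraicCurve

namespace Fermat.Agent.G1

open Fermat.Agent.GR

section Series

variable {M M' : ℕ} [NeZero M']

open Classical in
/-- the fibre of `ZMod M' → ZMod M` over `b`. -/
def fibre (h : M ∣ M') (b : ZMod M) : Finset (ZMod M') :=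
  Finset.univ.filter fun b' => ZMod.castHom h (ZMod M) b' = b

theorem mem_fibre (h : M ∣ M') (b : ZMod M) (b' : ZMod M') :
    b' ∈ fibre h b ↔ ZMod.castHom h (ZMod M) b' = b := by
  classical
  unfold fibre
  rw [Finset.mem_filter]
  exact ⟨fun h => h.2, fun h => ⟨Finset.mem_univ _, h⟩⟩

theorem ne_zero_of_mem_fibre (h : M ∣ M') {b : ZMod M} (hb : b ≠ 0) {b' : ZMod M'}
    (hb' : b' ∈ fibre h b) : b' ≠ 0 := by
  rintro rfl
  rw [mem_fibre, map_zero] at hb'
  exact hb hb'.symm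

theorem sum_fibre_ite (h : M ∣ M') (b : ZMod M) (c : ℕ) :
    ∑ b' ∈ fibre h b, (if ((c : ℕ) : ZMod M') = b' then (1 : ℤ) else 0) =
      if ((c : ℕ) : ZMod M) = b then 1 else 0 := by
  classical
  rw [Finset.sum_ite_eq]
  simp only [mem_fibre, map_natCast]

theorem sum_fibre_ite_neg (h : M ∣ M') (b : ZMod M) (c : ℕ) :
    ∑ b' ∈ fibre h b, (if ((c : ℕ) : ZMod M') = -b' then (1 : ℤ) else 0) =
      if ((c : ℕ) : ZMod M) = -b then 1 else 0 := by
  classical
  have h1 : ∀ b' : ZMod M', (((c : ℕ) : ZMod M') = -b') ↔ (-((c : ℕ) : ZMod M') = b') := by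
    intro b'
    constructor
    · intro h; rw [h, neg_neg]
    · intro h; rw [← h, neg_neg]
  simp only [h1]
  rw [Finset.sum_ite_eq]
  simp only [mem_fibre, map_neg, map_natCast]
  have h2 : (-((c : ℕ) : ZMod M) = b) ↔ (((c : ℕ) : ZMod M) = -b) := by
    constructor
    · intro h; rw [← h, neg_neg]
    · intro h; rw [h, neg_neg]
  simp only [h2]

/-- `e_b^{(M)} = ∑_{b' ↦ b} e_{b'}^{(M')}`. -/
theorem eB_eq_sum (h : M ∣ M') (b : ZMod M) : eB M b = ∑ b' ∈ fibre h b, eB M' b' := by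
  ext n
  rw [map_sum, coeff_eB]
  simp only [coeff_eB]
  rw [Finset.sum_comm]
  refine Finset.sum_congr rfl fun c _ => ?_
  rw [← Finset.sum_mul, Finset.sum_add_distrib, sum_fibre_ite, sum_fibre_ite_neg]

theorem eBL_eq_sum (R : Type*) [CommRing R] (h : M ∣ M') (b : ZMod M) :
    eBL R M b = ∑ b' ∈ fibre h b, eBL R M' b' := by
  unfold eBL
  rw [eB_eq_sum h b, map_sum, map_sum]

theorem uB_eq_sum (R : Type*) [CommRing R] (h : M ∣ M') (d : ℕ) [NeZero d] (b : ZMod M) :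
    uB R M d b = ∑ b' ∈ fibre h b, uB R M' d b' := by
  unfold uB
  rw [eBL_eq_sum R h b, Finset.sum_mul]

end Series

/-- **Monotonicity of `FF1` in the level.** -/
theorem FF1_mono (K : Type*) [Field K] {M M' : ℕ} [NeZero M'] (h : M ∣ M') :
    FF1 K M ≤ FF1 K M' := by
  rw [FF1, IntermediateField.adjoin_le_iff]
  rintro x (hx | hx)
  · obtain ⟨d, hd, hdM, rfl⟩ := hx
    exact FF_le_FF1 K M' (jqModCd_mem_full K M' (hdM.trans h))
  · obtain ⟨d, hd, b, hdM, hb, rfl⟩ := hx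
    rw [uB_eq_sum K h d b]
    exact sum_mem fun b' hb' => uB_mem_FF1 (hdM.trans h) (ne_zero_of_mem_fibre h hb hb')

end Fermat.Agent.G1
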