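import Fermat.Agent.G1.A.Export
import Fermat.Agent.G1.A.CharInjSurj
import Fermat.Agent.G1.B.Final
import Fermat.Agent.G1.D.Close
import Fermat.Agent.G1.IG.Inputs
import Fermat.Agent.S48.Per.Export

/-!
# G1: `G1MainStatement` from the model of `X₁(N)` over `ℤ_(ℓ)` (G1-IG)

Everything else (G1-A, B, C, D, E, F, H, AN, S48-PER) is plugged in.
-/

set_option autoImplicit false

namespace Fermat.Agent.G1

/-- the character theory of `Γ₁(M)` (G1-A + G1-B), unconditionally. -/
theorem charTheory1 (M : ℕ) [NeZero M] : H.CharTheory1 M :=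
  B.charTheory1_of_A M
    (fun _ _ _ hu => A.exists_char hu)
    (fun _ _ _ _ h hφ => A.isKummer_of_hasChar h hφ)
    (fun _ _ _ h => A.kummerEquiv_one_of_hasChar_zero h)
    (fun _ _ φ hφ => A.exists_hasChar φ hφ)

/-- `G1MainStatement` from the existence of the smooth model. -/
theorem g1Main_of_modelExists (hD : E.ModelExists) : Fermat.Agent.S48.G1MainStatement :=
  Fermat.Agent.S48.Per.g1Main_of_charTheory' (fun M _ => charTheory1 M) hD

/-- `G1MainStatement` from Igusa's theorem for `Γ₁(N)` in the form `IG.Model1`. -/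
theorem g1Main_of_model
    (h : ∀ (N : ℕ) [NeZero N] (ℓ : ℕ) [Fact ℓ.Prime], ¬ ℓ ∣ N → IG.Model1 N ℓ) :
    Fermat.Agent.S48.G1MainStatement :=
  g1Main_of_modelExists (D.modelExists_of_vert (IG.vertIn_of_model h))

end Fermat.Agent.G1
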